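import Fermat.Statements.S20
import Fermat.Agent.X0Analytic.Forms
import Fermat.Agent.EichlerShimura.Facts

set_option autoImplicit false
open CuspForm

namespace Fermat.Agent.S20

theorem result (N : ℕ) [NeZero N] :
    (Module.finrank ℂ (CuspForm (CongruenceSubgroup.Gamma0 N) 2) : ℚ) = ModularCurve.genusFormula N := by
  refine le_antisymm (EichlerShimura.finrank_le_genusFormula N) ?_
  let φ : AlgebraicClosure ℚ →+* ℂ :=
    letI : Algebra ℚ (AlgebraicClosure ℚ) := AlgebraicClosure.instAlgebra ℚ
    (IsAlgClosed.lift (R := ℚ) (M := ℂ) (S := AlgebraicClosure ℚ)).toRingHom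
  have := X0Analytic.isFunctionField (N := N) φ
  have := X0Analytic.finiteDimensional_jField (N := N) φ
  have := X0Analytic.isSeparable_jField (N := N) φ
  have := (EichlerShimura.periodFacts N).finiteDimensional_cuspForm
  rw [← X0Analytic.genusOf_eq_genusFormula (N := N) φ]
  exact_mod_cast X0Analytic.genusOf_le_finrank_cuspForm (N := N) φ

end Fermat.Agent.S20
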