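-- S51: a semistable integral Weierstrass curve has irreducible mod-3 or mod-5 representation.
import Fermat.Statements.S51
import Fermat.Agent.X015.Reducible
import Fermat.Agent.EllTorsion.Count

set_option autoImplicit false
open WeierstrassCurve WeierstrassCurve.Affine WeierstrassCurve.Affine.Point
open CuspForm ModularFormClass UpperHalfPlane
open WeierstrassCurve

namespace Fermat.Agent.S51

theorem result (W : WeierstrassCurve ℤ) (hΔ : W.Δ ≠ 0) (hW : W.IsSemistableModel) : W.ModRepIsIrreducible 3 ∨ W.ModRepIsIrreducible 5 := by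
  refine Fermat.Agent.X015.modThreeOrFive W hΔ (hW 5 (by norm_num)) fun p hp => ?_
  have : (W.map (Int.castRingHom ℚ)).IsElliptic := ⟨by
    rw [map_Δ]; exact isUnit_iff_ne_zero.2 (by simpa using hΔ)⟩
  exact Fermat.Agent.EllTorsion.natCard_torsionBy_baseChange (W.map (Int.castRingHom ℚ))
    (AlgebraicClosure ℚ) p (Nat.cast_ne_zero.2 hp.ne_zero)

end Fermat.Agent.S51
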