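import Fermat.Agent.S01
import Fermat.Agent.S60
import Mathlib.NumberTheory.FLT.Basic

/-!
# The two main theorems

`S01.result` restated as Mathlib's proposition `FermatLastTheorem`, and modularity of semistable
curves (`S60.result`) under a descriptive name.
-/

namespace Fermat.Agent.Corollary

/-- Fermat's Last Theorem, as stated in Mathlib. -/
theorem fermatLastTheorem : FermatLastTheorem := by
  intro n hn a b c ha hb hc
  exact Fermat.Agent.S01.result n hn a b c (Nat.pos_of_ne_zero ha) (Nat.pos_of_ne_zero hb)
    (Nat.pos_of_ne_zero hc)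

/-- Fermat's Last Theorem over the integers. -/
theorem fermatLastTheoremWith_int (n : ℕ) (hn : 3 ≤ n) : FermatLastTheoremWith ℤ n :=
  ((fermatLastTheoremWith_nat_int_rat_tfae n).out 0 1).1 (fermatLastTheorem n hn)

/-- Fermat's Last Theorem over the rationals. -/
theorem fermatLastTheoremWith_rat (n : ℕ) (hn : 3 ≤ n) : FermatLastTheoremWith ℚ n :=
  ((fermatLastTheoremWith_nat_int_rat_tfae n).out 0 2).1 (fermatLastTheorem n hn)

/-- Semistable integral Weierstrass curves with nonzero discriminant are modular over `ℚ`, in the
prelude's sense of `IsModular`. -/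
theorem isModular_of_isSemistableModel (W : WeierstrassCurve ℤ) (hΔ : W.Δ ≠ 0)
    (hW : W.IsSemistableModel) : (W.map (Int.castRingHom ℚ)).IsModular :=
  Fermat.Agent.S60.result W hΔ hW

end Fermat.Agent.Corollary
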