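import Fermat.Statements.S40
import Fermat.Agent.Row39.Main

set_option autoImplicit false
open WeierstrassCurve

namespace Fermat.Agent.S40

theorem result
    (W : WeierstrassCurve ℤ) (hΔ : W.Δ ≠ 0)
    {p : ℕ} (hp : p.Prime) (hp2 : p ≠ 2)
    (hgood : W.IsGoodPrimeFor p)
    (hirr : W.ModRepIsIrreducible p)
    {M : ℕ} (hM : 0 < M) (hpM : p ∣ M) (hp2M : ¬ p ^ 2 ∣ M)
    (hmod : W.IsResiduallyModularOfLevel p M) :
    W.IsResiduallyModularOfLevel p (M / p) := by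
  haveI : Fact p.Prime := ⟨hp⟩
  obtain ⟨M', rfl⟩ : ∃ M', M = M' * p := ⟨M / p, (Nat.div_mul_cancel hpM).symm⟩
  rw [Nat.mul_div_cancel _ hp.pos]
  haveI : NeZero M' := ⟨fun h => by rw [h, zero_mul] at hM; exact lt_irrefl 0 hM⟩
  have hp3 : 3 ≤ p := by have := hp.two_le; omega
  exact Row39.isResiduallyModularOfLevel_of_localAt hp3 hΔ hirr
    (fun h => hp2M (by rw [pow_two]; exact Nat.mul_dvd_mul_right h p))
    (fun A hA => Row39.localAt_of_good hp3 hΔ hgood hA) hmod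

end Fermat.Agent.S40
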