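import Fermat.Statements.S11
import Fermat.Agent.Isogeny.Cofixed
import Fermat.Agent.Eleven.NoPoint

set_option autoImplicit false
open WeierstrassCurve WeierstrassCurve.Affine WeierstrassCurve.Affine.Point
open CuspForm ModularFormClass UpperHalfPlane
open FreyPackage

namespace Fermat.Agent.S11

theorem result (P : FreyPackage) (hp : P.p = 11) : ¬ HasGaloisStableCofixedLine (K := AlgebraicClosure ℚ) ℚ P.freyCurve P.p := by
  intro h
  obtain ⟨W', hW', Q, -, -, hQ, -⟩ := Fermat.Agent.Isogeny.exists_curve_of_frey_cofixedLine P h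
  exact @Fermat.Agent.Eleven.addOrderOf_ne_eleven W' hW' Q (hQ.trans hp)

end Fermat.Agent.S11
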