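import Fermat.Statements.S14
import Fermat.Agent.ExtVanishing.Core

set_option autoImplicit false
open ExtCitation

namespace Fermat.Agent.S14

theorem result {p : ℕ} [Fact p.Prime] (h3 : 3 ≤ p) :
    ExtCitation.ExtVanishingCts p :=
  Fermat.Agent.ExtVanishing.extVanishingCts h3

end Fermat.Agent.S14
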