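import Fermat.Statements.S02
import Mathlib.Tactic

set_option autoImplicit false
open FreyPackage

namespace Fermat.Agent.S02

theorem result (a b c : ℤ) (ha : a ≠ 0) (hb : b ≠ 0) (hc : c ≠ 0) (p : ℕ) (pp : p.Prime) (hp5 : 5 ≤ p) (H : a ^ p + b ^ p = c ^ p) : Nonempty FreyPackage := by
  -- first remove the common factor
  obtain ⟨a, b, c, hab, ha, hb, hc, H⟩ : ∃ a' b' c' : ℤ, IsCoprime a' b' ∧ a' ≠ 0 ∧ b' ≠ 0 ∧
      c' ≠ 0 ∧ a' ^ p + b' ^ p = c' ^ p := by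
    obtain ⟨d, a', b', hd, hab, rfl, rfl⟩ :=
      Int.exists_gcd_one' (m := a) (n := b) (Nat.pos_of_ne_zero (Int.gcd_ne_zero_left ha))
    have hd' : (d : ℤ) ≠ 0 := by exact_mod_cast hd.ne'
    obtain ⟨c', rfl⟩ : (d : ℤ) ∣ c := by
      rw [← Int.pow_dvd_pow_iff pp.ne_zero, ← H]
      exact dvd_add (pow_dvd_pow_of_dvd (dvd_mul_left _ _) _) (pow_dvd_pow_of_dvd (dvd_mul_left _ _) _)
    refine ⟨a', b', c', Int.isCoprime_iff_gcd_eq_one.2 hab, left_ne_zero_of_mul ha,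
      left_ne_zero_of_mul hb, right_ne_zero_of_mul hc, ?_⟩
    apply mul_left_cancel₀ (pow_ne_zero p hd')
    linear_combination (norm := ring_nf) H
  have hp : Odd p := pp.odd_of_ne_two (by omega)
  have hac : IsCoprime a c := by
    rw [← IsCoprime.pow_iff (m := p) (n := p) pp.pos pp.pos] at hab ⊢
    rw [← H]
    simpa [add_comm] using hab.add_mul_left_right 1
  have hbc : IsCoprime b c := by
    rw [← IsCoprime.pow_iff (m := p) (n := p) pp.pos pp.pos] at hab ⊢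
    rw [← H]
    simpa using hab.symm.add_mul_left_right 1
  -- make the second entry the even one
  obtain ⟨a, b, c, hab, ha, hb, hc, H, hev⟩ : ∃ a' b' c' : ℤ, IsCoprime a' b' ∧ a' ≠ 0 ∧ b' ≠ 0 ∧
      c' ≠ 0 ∧ a' ^ p + b' ^ p = c' ^ p ∧ Even b' := by
    rcases Int.even_or_odd b with hb2 | hb2
    · exact ⟨a, b, c, hab, ha, hb, hc, H, hb2⟩
    rcases Int.even_or_odd a with ha2 | ha2
    · exact ⟨b, a, c, hab.symm, hb, ha, hc, by rw [← H, add_comm], ha2⟩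
    refine ⟨a, -c, -b, hac.neg_right, ha, neg_ne_zero.2 hc, neg_ne_zero.2 hb, ?_, ?_⟩
    · rw [hp.neg_pow, hp.neg_pow]; linear_combination H
    · have h : Even (c ^ p) := H ▸ (ha2.pow.add_odd hb2.pow)
      exact even_neg.2 (Int.even_pow.1 h).1
  -- fix the sign
  have ha2 : ¬ (2 : ℤ) ∣ a := fun h => by
    have := hab.isUnit_of_dvd' h hev.two_dvd
    norm_num [Int.isUnit_iff] at this
  obtain ⟨a, b, c, hab, ha, hb, hc, H, hev, h4⟩ : ∃ a' b' c' : ℤ, IsCoprime a' b' ∧ a' ≠ 0 ∧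
      b' ≠ 0 ∧ c' ≠ 0 ∧ a' ^ p + b' ^ p = c' ^ p ∧ Even b' ∧ a' % 4 = 3 := by
    rcases (show a % 4 = 3 ∨ (-a) % 4 = 3 by omega) with h | h
    · exact ⟨a, b, c, hab, ha, hb, hc, H, hev, h⟩
    · refine ⟨-a, -b, -c, hab.neg_neg, neg_ne_zero.2 ha, neg_ne_zero.2 hb, neg_ne_zero.2 hc, ?_,
        even_neg.2 hev, h⟩
      rw [hp.neg_pow, hp.neg_pow, hp.neg_pow, ← H]; ring
  refine ⟨⟨a, b, c, ha, hb, hc, p, pp, hp5, H, ?_, ?_, ?_⟩⟩
  · change ((Int.gcd a b : ℕ) : ℤ) = 1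
    rw [Int.isCoprime_iff_gcd_eq_one.1 hab, Nat.cast_one]
  · rw [← ZMod.intCast_mod a 4]
    norm_num [h4]
    try rfl
  · exact (ZMod.intCast_zmod_eq_zero_iff_dvd b 2).2 hev.two_dvd

end Fermat.Agent.S02
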