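import Fermat.Statements.S05
import Fermat.Agent.MultRed.Galois
import Fermat.Agent.MultRed.Frey

set_option autoImplicit false
open WeierstrassCurve WeierstrassCurve.Affine WeierstrassCurve.Affine.Point
open CuspForm ModularFormClass UpperHalfPlane
open FreyPackage

namespace Fermat.Agent.S05

theorem result (P : FreyPackage) {q : ℕ} (hq : q.Prime) (hq2 : q ≠ 2) (hqp : q ≠ P.p) : P.GaloisRepUnramifiedAt q := by
  intro A hA σ hσ x
  haveI := Fact.mk hq
  have hn : ¬ q ∣ P.p := fun h => hqp ((Nat.prime_dvd_prime_iff_eq hq P.pp).1 h)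
  suffices key : ∀ Q : ((P.freyCurveInt.map (Int.castRingHom ℚ))⁄(AlgebraicClosure ℚ)).Point,
      P.p • Q = 0 → σ • Q = Q by
    rw [MultRed.freyCurveInt_map P] at key
    refine Subtype.ext (key _ ?_)
    have hx := (Submodule.mem_torsionBy_iff _ _).1 x.2
    rwa [natCast_zsmul] at hx
  intro Q hQ
  by_cases hΔ : (q : ℤ) ∣ P.freyCurveInt.Δ
  · refine MultRed.inertia_smul_eq_of_dvd hq hA (MultRed.freyCurveInt_Δ_ne_zero P) hΔ
      (MultRed.not_dvd_freyCurveInt_c₄ P hq hΔ) hσ P.hp_odd hn ?_ hQ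
    rw [MultRed.padicValInt_freyCurveInt_Δ P hq2]
    exact (dvd_mul_left _ _).mul_right _
  · exact MultRed.inertia_smul_eq_of_good hq hA hΔ hσ hn hQ

end Fermat.Agent.S05
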