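import Fermat.Statements.S07
import Fermat.Agent.Quick.CuspTwo

set_option autoImplicit false
open WeierstrassCurve WeierstrassCurve.Affine WeierstrassCurve.Affine.Point
open CuspForm ModularFormClass UpperHalfPlane
open ModularForm

namespace Fermat.Agent.S07

theorem result (f : CuspForm (CongruenceSubgroup.Gamma0 2) 2) : f = 0 := by
  refine Fermat.Agent.Quick.cuspForm_eq_zero_of_index_le ?_ f
  rw [Fermat.Agent.Gamma0Count.index_Gamma0, Fermat.Agent.Quick.dedekindPsi_two]
  omega

end Fermat.Agent.S07
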