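import Fermat.Statements.S49
import Fermat.Agent.HeckeEigen.CongruenceLift

set_option autoImplicit false
open CuspForm EisensteinWeightOne CongruenceSubgroup ModularFormClass
open FLT FLT.AbstractIntegralStructure

namespace Fermat.Agent.S49

open Fermat.Agent.HeckeEigen

theorem natCast_eq_chiNegThree (n : ℕ) : (n : ZMod 3) = (chiNegThree n : ZMod 3) := by
  rw [← ZMod.natCast_mod n 3]
  unfold chiNegThree
  have h3 : n % 3 < 3 := Nat.mod_lt _ (by norm_num)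
  interval_cases h : n % 3 <;> decide

theorem bridgeProduct_coeff_mod_three (a : ℕ → ℤ) (n : ℕ) :
    (((bridgeProduct a).coeff n : ℤ) : ZMod 3) = (a n : ZMod 3) := by
  have he : PowerSeries.map (Int.castRingHom (ZMod 3)) (e1Chi3In ℤ) = 1 := by
    refine PowerSeries.ext fun m => ?_
    rcases Nat.eq_zero_or_pos m with rfl | hm
    · simp [e1Chi3In, e1Chi3]
    · simp [e1Chi3In, e1Chi3, hm.ne', PowerSeries.coeff_one,
        show (6 : ZMod 3) = 0 from rfl]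
  have h := PowerSeries.coeff_map (Int.castRingHom (ZMod 3)) n (bridgeProduct a)
  rw [bridgeProduct, map_mul, he, mul_one, PowerSeries.coeff_map, PowerSeries.coeff_mk] at h
  exact h.symm

theorem hasIntegralStructure_of_hasIntegralBasis {N : ℕ} (h : CuspForm.HasIntegralBasis N) :
    CuspForm.HasIntegralStructure N 2 := by
  refine eq_top_iff.mpr (h ▸ Submodule.span_mono fun f hf => Submodule.subset_span fun n => ?_)
  obtain ⟨m, hm⟩ := Subring.mem_bot.mp (hf n)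
  exact ⟨m, hm.symm⟩

theorem result
    {N : ℕ} [NeZero N] (h : CuspForm.HasIntegralBasis N) {a : ℕ → ℤ}
    (heig : FormalHecke.IsEigensystem
      (fun ℓ => if ℓ ∣ N then 0 else ((chiNegThree ℓ : ℤ) : ℤ)) a)
    (hreal : CuspForm.IsLatticeRealized N a) :
    ∃ (f : CuspForm (Gamma0 N) 2) (_ : f.IsNormalizedEigenform)
      (𝔪' : Ideal (integralClosure ℤ ℂ)), 𝔪'.IsMaximal ∧
      ((3 : ℕ) : integralClosure ℤ ℂ) ∈ 𝔪' ∧
      ∀ (ℓ : ℕ) (_ : ℓ.Prime) (_ : ¬ ℓ ∣ N),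
        ∃ c : integralClosure ℤ ℂ, (c : ℂ) = ModularFormClass.qCoeff f ℓ ∧
          c - (a ℓ : integralClosure ℤ ℂ) ∈ 𝔪' := by
  obtain ⟨f, hfq, af, haf, hcong⟩ := hreal
  have hmem : f ∈ CuspForm.intLattice N 2 :=
    mem_intLattice_iff.mpr fun n => ⟨af n, (haf n).symm⟩
  have hmod : ∀ n, (af n : ZMod 3) = (a n : ZMod 3) := fun n => by
    rw [← bridgeProduct_coeff_mod_three a n, ← sub_eq_zero, ← Int.cast_sub,
      ZMod.intCast_zmod_eq_zero_iff_dvd]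
    exact hcong n
  have key : ∀ (ℓ : ℕ), ℓ.Prime → ∀ n, ((af (n * ℓ) : ℤ) : ZMod 3) +
      (if ¬ ℓ ∣ N ∧ ℓ ∣ n then (ℓ : ZMod 3) * (af (n / ℓ) : ZMod 3) else 0) =
      (a ℓ : ZMod 3) * (af n : ZMod 3) := by
    intro ℓ hℓ n
    have hr := congrArg (Int.cast (R := ZMod 3)) (heig.2 ℓ hℓ n)
    push_cast at hr
    rw [hmod, hmod, hmod, mul_comm n ℓ, natCast_eq_chiNegThree, ← hr]
    by_cases hN : ℓ ∣ N <;> by_cases hn : ℓ ∣ n <;> simp [hN, hn]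
  have hT : ∀ (ℓ : ℕ) (hℓ : ℓ.Prime) (hℓN : ¬ ℓ ∣ N),
      IsModEigen 3 f (CuspForm.heckeAlgebra.T hℓ hℓN (Set.notMem_empty _)) (a ℓ) := by
    intro ℓ hℓ hℓN
    refine isModEigen_of_dvd 3 _ _ fun n => ?_
    obtain ⟨m, hm⟩ : (3 : ℤ) ∣ af (n * ℓ) + (if ℓ ∣ n then (ℓ : ℤ) * af (n / ℓ) else 0) -
        a ℓ * af n := by
      have h3 := key ℓ hℓ n
      simp only [hℓN, not_false_eq_true, true_and] at h3
      rw [← sub_eq_zero] at h3
      refine (ZMod.intCast_zmod_eq_zero_iff_dvd _ 3).mp ?_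
      push_cast
      exact h3
    refine ⟨m, ?_⟩
    rw [CuspForm.heckeAlgebra.coe_T, qCoeff_heckeTLin hℓ hℓN, ← haf, ← haf, ← haf]
    norm_num
    exact_mod_cast hm
  have hU : ∀ (ℓ : ℕ) (hℓ : ℓ.Prime) (hℓN : ℓ ∣ N),
      IsModEigen 3 f (CuspForm.heckeAlgebra.U hℓ hℓN (Set.notMem_empty _)) (a ℓ) := by
    intro ℓ hℓ hℓN
    refine isModEigen_of_dvd 3 _ _ fun n => ?_
    obtain ⟨m, hm⟩ : (3 : ℤ) ∣ af (n * ℓ) - a ℓ * af n := by
      have h3 := key ℓ hℓ n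
      simp only [hℓN, not_true_eq_false, false_and, if_false, add_zero] at h3
      rw [← sub_eq_zero] at h3
      refine (ZMod.intCast_zmod_eq_zero_iff_dvd _ 3).mp ?_
      push_cast
      exact h3
    refine ⟨m, ?_⟩
    rw [CuspForm.heckeAlgebra.coe_U, qCoeff_heckeULin hℓ.ne_zero hℓN, ← haf, ← haf]
    norm_num
    exact_mod_cast hm
  have : Fact (Nat.Prime 3) := ⟨Nat.prime_three⟩
  obtain ⟨ψ, hψ⟩ := exists_modHom 3 (by norm_num) hmem (haf 1).symm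
    (by rw [hmod, heig.1, Int.cast_one])
    (exists_isModEigen_of_generators (by norm_num) 3 (fun ℓ hℓ hℓN => ⟨_, hT ℓ hℓ hℓN⟩)
      (fun ℓ hℓ hℓN => ⟨_, hU ℓ hℓ hℓN⟩))
  obtain ⟨g, hg, φ', Q, hQ, h3, hφ', hcg⟩ :=
    exists_eigenform_congruent (hasIntegralStructure_of_hasIntegralBasis h) 3 ψ
  refine ⟨g, hg, Q, hQ, h3, fun ℓ hℓ hℓN =>
    ⟨φ' (CuspForm.heckeAlgebra.T hℓ hℓN (Set.notMem_empty _)), ?_, ?_⟩⟩
  · rw [hφ', eigenHom_T]
  · exact hcg _ _ (hψ _ _ (hT ℓ hℓ hℓN))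

end Fermat.Agent.S49
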