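import Fermat.Statements.S10
import Fermat.Agent.SmallP.TateCases
import Fermat.Agent.Isogeny.Cofixed

set_option autoImplicit false
open WeierstrassCurve WeierstrassCurve.Affine WeierstrassCurve.Affine.Point
open CuspForm ModularFormClass UpperHalfPlane
open FreyPackage

namespace Fermat.Agent.S10

open Fermat.Agent.SmallP Fermat.Agent.Isogeny in
theorem result (P : FreyPackage) (hp : P.p = 5 ∨ P.p = 7 ∨ P.p = 13) : ¬ HasGaloisStableCofixedLine (K := AlgebraicClosure ℚ) ℚ P.freyCurve P.p := by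
  intro hline
  obtain ⟨W', hW', Q, T₁, T₂, hQ, hT₁, hT₂, hne⟩ := exists_curve_of_frey_cofixedLine P hline
  have hp5 := P.hp5
  have hnsmul : ∀ k : ℕ, 0 < k → k < P.p → k • Q ≠ 0 := by
    intro k hk hkp h0
    have := Nat.le_of_dvd hk (addOrderOf_dvd_of_nsmul_eq_zero h0)
    omega
  obtain ⟨b, c, C, hC, hb, hE, e, hns, he⟩ :=
    exists_tateNormalForm W' Q (hnsmul 2 two_pos (by omega)) (hnsmul 3 three_pos (by omega))
  have hord : ∀ T, addOrderOf (e T) = addOrderOf T := fun T =>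
    addOrderOf_injective e.toAddMonoidHom e.injective T
  have hQ' : addOrderOf (Point.some 0 0 hns) = P.p := by rw [← he, hord, hQ]
  have h₁ : addOrderOf (e T₁) = 2 := by rw [hord, hT₁]
  have h₂ : addOrderOf (e T₂) = 2 := by rw [hord, hT₂]
  obtain ⟨δ, hδ⟩ := isSquare_Δ_of_two (e T₁) (e T₂) h₁ h₂ (fun h => hne (e.injective h))
  rcases hp with hp | hp | hp <;> rw [hp] at hQ'
  · obtain rfl := tate_order_five hb hns hQ'
    exact tate_five_false hb hδ
  · obtain ⟨d, hd0, hd1, hbd, hcd⟩ := tate_order_seven hb hns hQ'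
    obtain ⟨x, y, hT, -, -, hroot⟩ := exists_root_of_order_two (e T₁) h₁
    exact tate_seven_false hd0 hd1 hbd hcd hroot
  · obtain ⟨r, s, hbr, hcr, hr, hr1, hs, hs1, hrs, hF⟩ := tate_order_thirteen hb hns hQ'
    exact tate_thirteen_false hbr hcr hr hr1 hs hs1 hrs hF hδ hE.isUnit.ne_zero

end Fermat.Agent.S10
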