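import Fermat.Statements.S24
import Fermat.Agent.X0Analytic.Genus
import Fermat.Agent.FunctionFieldRR.Genus

set_option autoImplicit false
open ModularCurve

namespace Fermat.Agent.S24

theorem result (N : ℕ) [NeZero N]
    [AlgebraicCurve.HasCanonicalDivisor (K := AlgebraicClosure ℚ) (F := ↥(ModularCurve.modularFunctionFieldBar N))] :
    (AlgebraicCurve.genus (AlgebraicClosure ℚ) ↥(ModularCurve.modularFunctionFieldBar N) : ℚ)
      = ModularCurve.genusFormula N := by
  have : Algebra.IsAlgebraic ℚ (AlgebraicClosure ℚ) := by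
    convert AlgebraicClosure.isAlgebraic ℚ using 0
    congr!
  let φ : AlgebraicClosure ℚ →+* ℂ :=
    (IsAlgClosed.lift (R := ℚ) (M := ℂ) (S := AlgebraicClosure ℚ)).toRingHom
  have := X0Analytic.isFunctionField (N := N) φ
  have := X0Analytic.finiteDimensional_jField (N := N) φ
  have := X0Analytic.isSeparable_jField (N := N) φ
  rw [← X0Analytic.genusOf_eq_genusFormula (N := N) φ]
  congr 1
  refine FunctionFieldRR.genus_eq_genusOf (X0Analytic.transcendental_jEl φ) fun w => ?_
  have := FunctionFieldRR.one_le_ramificationIndex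
    (F := IntermediateField.adjoin (AlgebraicClosure ℚ) {X0Analytic.jEl (AlgebraicClosure ℚ) N}) w
  exact Nat.cast_ne_zero.mpr (by omega)

end Fermat.Agent.S24
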