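-- Proof of statement S25 (row 24): the Jacobian of a curve over an algebraically closed field.
import Fermat.Statements.S25
import Fermat.Agent.Row24.Jacobian
import Fermat.Agent.Row24.Euler.Covering

set_option autoImplicit false
set_option autoImplicit false
universe u
open CategoryTheory CategoryTheory.Limits AlgebraicGeometry AlgebraicGeometry.RelPicard NeronModelInfra
  GoodReductionJacobian
open AlgebraicGeometry AlgebraicGeometry.RelPicard

namespace Fermat.Agent.S25

theorem result
    (k : Type u) [Field k] [IsAlgClosed k] {C : Scheme.{u}} (c : C ⟶ Spec (CommRingCat.of k))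
    [IsProper c] [SmoothOfRelativeDimension 1 c] [IsIntegral C]
    (ε : SchemeHomOver (𝟙 (Spec (CommRingCat.of k))) c) :
    ∃ D : RelativePic0Designation k c,
      Nonempty (RepresentsRelSubPic c ε (algEquivZeroCut c ε) D) ∧
        Smooth D.toBase ∧ IsProper D.toBase ∧ GeometricallyConnected D.toBase := by
  exact Fermat.Agent.Row24.exists_jacobian_of_cover c ε fun _ _ _ _ L hL =>
    L.exists_chart_of_chi hL

end Fermat.Agent.S25
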