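import Fermat.Statements.S27
import Fermat.Agent.Row27.BaseData
import Fermat.Agent.Row27.SpecTheory.Main
import Fermat.Agent.Row27.Theta
import Fermat.Agent.Row27.Count

set_option autoImplicit false
set_option autoImplicit false
open AlgebraicCurve
open AlgebraicCurve AlgebraicCurve.Pic0

namespace Fermat.Agent.S27

theorem result
    (K F : Type*) [Field K] [Field F] [Algebra K F] [IsAlgClosed K] [CharZero K]
    [IsCurveOver K F] [Algebra.EssFiniteType K F]
    (ℓ : ℕ) [Fact ℓ.Prime] (k : ℕ) :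
    Nat.card (Pic0.torsion K F (ℓ ^ k)) = ℓ ^ (2 * genusFF K F * k) := by
  classical
  obtain ⟨C, hg, ⟨e⟩⟩ := Fermat.Agent.Row27.exists_curveData K F
  have he : Nat.card (Pic0.torsion K F (ℓ ^ k)) =
      Nat.card (Pic0.torsion K (C.curve K) (ℓ ^ k)) :=
    Nat.card_congr (e.toEquiv.subtypeEquiv fun x => by
      rw [Pic0.mem_torsion, Pic0.mem_torsion]
      show _ ↔ ((ℓ ^ k : ℕ) : ℤ) • e x = 0
      rw [← map_zsmul, AddEquiv.map_eq_zero_iff])
  rw [he, Fermat.Agent.Row27.natCard_torsion C (Fermat.Agent.Row27.specTheory C)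
    (Fermat.Agent.Row27.thetaTheory C (Fermat.Agent.Row27.specTheory C)) (ℓ ^ k)
    (pow_pos (Fact.out : ℓ.Prime).pos k), ← hg, ← pow_mul]
  congr 1
  ring

end Fermat.Agent.S27
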