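import Fermat.Statements.S33
import Fermat.Agent.OrdinaryT.Datum

set_option autoImplicit false
variable {p : ℕ} {N : ℕ} [NeZero N] {S : Finset ℕ}
  {𝒪 : Type} [CommRing 𝒪] [IsDomain 𝒪] [IsDiscreteValuationRing 𝒪]
  [IsAdicComplete (IsLocalRing.maximalIdeal 𝒪) 𝒪]
  {θ : CuspForm.heckeAlgebra N 2 (↑S : Set ℕ) →+* IsLocalRing.ResidueField 𝒪}
  {T : Type} [CommRing T] [IsLocalRing T] [IsNoetherianRing T]
  [IsAdicComplete (IsLocalRing.maximalIdeal T) T] [Algebra 𝒪 T] [IsLocalHom (algebraMap 𝒪 T)]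
  [Module.Finite 𝒪 T] [Module.Free 𝒪 T]
open CuspForm CuspForm.HeckeGaloisRepDatum

namespace Fermat.Agent.S33

theorem result
    [Finite (IsLocalRing.ResidueField 𝒪)] [CharZero 𝒪]
    (hp : p.Prime) (hp2 : p ≠ 2) (hp𝒪 : (p : 𝒪) ∈ IsLocalRing.maximalIdeal 𝒪) (hN : p ∣ N ∧ ¬ p ^ 2 ∣ N)
    (hNS : ∀ q : ℕ, q.Prime → q ∣ N → q ∈ S)
    (H : CuspForm.HeckeGaloisRepDatum N (↑S : Set ℕ) 𝒪 θ T)
    (hres : (GaloisRepAdic.ofResidualGaloisRep H.ρ.residual).IsOrdinaryAt p) :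
    H.ρ.IsOrdinaryAt p := by
  haveI : Fact p.Prime := ⟨hp⟩
  obtain ⟨⟨M, rfl⟩, h2⟩ := hN
  have hpT : (p : T) ∈ IsLocalRing.maximalIdeal T := by
    rw [← map_natCast (algebraMap 𝒪 T)]
    exact map_nonunit _ _ hp𝒪
  have hred : IsReduced T := OrdinaryT.isReduced_of_away (S := (↑S : Set ℕ))
    (fun q hq h => hNS q hq h) H.π H.adjoin_range_π
  have hpM : ¬ p ∣ M := fun ⟨c, hc⟩ => h2 ⟨c, by rw [hc, sq, mul_assoc]⟩
  haveI : NeZero M := ⟨fun h => NeZero.ne (p * M) (by rw [h, mul_zero])⟩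
  have key : ∀ (N : ℕ) [NeZero N], N = p * M → ∀ (π : CuspForm.heckeAlgebra N 2 (↑S : Set ℕ) →+* T),
      (∀ (ℓ : ℕ) (hℓ : ℓ.Prime) (hℓN : ¬ ℓ ∣ N) (hℓS : ℓ ∉ (↑S : Set ℕ)),
      ∀ A : ValuationSubring (AlgebraicClosure ℚ), A.LiesOverPrime ℓ →
      ∀ σ : AlgebraicClosure ℚ ≃ₐ[ℚ] AlgebraicClosure ℚ, A.IsFrobeniusAt σ ℓ →
        LinearMap.charpoly (H.ρ.ρ σ) = Polynomial.X ^ 2 -
          Polynomial.C (π (heckeAlgebra.T hℓ hℓN hℓS)) * Polynomial.X + Polynomial.C ((ℓ : T))) →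
      H.ρ.IsOrdinaryAt p := by
    intro N _ hN π hπ
    obtain rfl : N = M * p := hN.trans (mul_comm p M)
    exact OrdinaryT.isOrdinaryAt_of_residual hp2 hpM
      (fun q hq h => hNS q hq (mul_comm p M ▸ h)) hred hpT π H.ρ hπ H.residual_absIrr hres
  exact key _ rfl H.π H.charpoly_frob

end Fermat.Agent.S33
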