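import Fermat.Statements.S38
import Fermat.Agent.Row38.Glue
import Fermat.Agent.General.Lower.Main
import Fermat.Agent.S40

set_option autoImplicit false
set_option autoImplicit false
open WeierstrassCurve WeierstrassCurve.Affine WeierstrassCurve.Affine.Point
open WeierstrassCurve

namespace Fermat.Agent.S38

theorem result
    (p : ℕ) [Fact p.Prime] (_hp2 : p ≠ 2) (W : WeierstrassCurve ℤ) (_hΔ : W.Δ ≠ 0)
    (_hW : W.IsSemistableModel)
    (hcard₁ : Nat.card (Submodule.torsionBy ℤ
      ((W.map (Int.castRingHom ℚ))⁄(AlgebraicClosure ℚ)).Point p) = p ^ 2)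
    (hker : GaloisFactorsThroughFiniteLevel
      (WeierstrassCurve.Affine.Point.galoisRepModuleEnd (K := AlgebraicClosure ℚ) ℚ
        (W.map (Int.castRingHom ℚ)) p))
    (_hirr : W.ModRepIsIrreducible p) (M q : ℕ) (hq : q.Prime) (hqp : q ≠ p)
    (hqM : q ∣ M) (hq2 : ¬ q ^ 2 ∣ M) (hM : Squarefree M)
    (hunr : ((W.map (Int.castRingHom ℚ)).residualGaloisRepOf p hcard₁ hker).IsUnramifiedAt q)
    (hres : W.IsResiduallyModularOfLevel p M) :
    W.IsResiduallyModularOfLevel p (M / q) := by
  exact Fermat.Agent.Row38.s38_of p _hp2 Fermat.Agent.General.lowering_three W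
    (fun M' hgood hpM hsq hmod => Fermat.Agent.S40.result W _hΔ (Fact.out : p.Prime) _hp2 hgood _hirr
      (Nat.pos_of_ne_zero hsq.ne_zero) hpM
      (fun h => Nat.squarefree_iff_prime_squarefree.1 hsq p Fact.out (by rwa [pow_two] at h)) hmod)
    _hΔ _hW hcard₁ hker _hirr M q hq hqp hqM hM hunr hres

end Fermat.Agent.S38
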