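import Fermat.Statements.S41
import Fermat.Agent.LevelRaising.EigenSymbol
import Fermat.Agent.LevelRaising.FormOfSymbol
import Fermat.Agent.LevelRaising.GaloisPrimes

set_option autoImplicit false
open WeierstrassCurve WeierstrassCurve.Affine WeierstrassCurve.Affine.Point
open scoped CongruenceSubgroup
open WeierstrassCurve

namespace Fermat.Agent.S41

open Fermat.Agent.LevelRaising

theorem result
    (E : WeierstrassCurve ℚ) [E.IsElliptic] {W : WeierstrassCurve ℤ} (hW : W.IsIntegralModelOf E)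
    {p N q' : ℕ} (hp : p.Prime) (hp2 : p ≠ 2) (hN : 0 < N) (hq' : q'.Prime) (hq'N : ¬ q' ∣ N) (hq'p : q' ≠ p)
    (hirr : GaloisRepIsIrreducible (K := AlgebraicClosure ℚ) ℚ E p)
    (f : CuspForm (CongruenceSubgroup.Gamma0 N) 2) (𝔪 : Ideal (integralClosure ℤ ℂ))
    (hf : f.IsNormalizedEigenform) (hmax : 𝔪.IsMaximal) (hpm : (p : integralClosure ℤ ℂ) ∈ 𝔪)
    (hcong : ∀ ℓ : ℕ, ℓ.Prime → W.IsGoodPrimeFor ℓ → ¬ ℓ ∣ N → ℓ ≠ p →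
      ∃ a : integralClosure ℤ ℂ, (a : ℂ) = ModularFormClass.qCoeff f ℓ ∧
        a - ((W.apOfModel ℓ : ℤ) : integralClosure ℤ ℂ) ∈ 𝔪)
    (hLR : ∃ a : integralClosure ℤ ℂ, (a : ℂ) = ModularFormClass.qCoeff f q' ∧
      a ^ 2 - ((q' : integralClosure ℤ ℂ) + 1) ^ 2 ∈ 𝔪) :
    ∃ (g : CuspForm (CongruenceSubgroup.Gamma0 (N * q')) 2) (𝔪' : Ideal (integralClosure ℤ ℂ)),
      g.IsNormalizedEigenform ∧ 𝔪'.IsMaximal ∧ (p : integralClosure ℤ ℂ) ∈ 𝔪' ∧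
      (∀ ℓ : ℕ, ℓ.Prime → W.IsGoodPrimeFor ℓ → ¬ ℓ ∣ N * q' → ℓ ≠ p →
        ∃ a : integralClosure ℤ ℂ, (a : ℂ) = ModularFormClass.qCoeff g ℓ ∧
          a - ((W.apOfModel ℓ : ℤ) : integralClosure ℤ ℂ) ∈ 𝔪') ∧
      g.IsNewAt q' := by
  classical
  have : Fact p.Prime := ⟨hp⟩
  have : NeZero N := ⟨hN.ne'⟩
  have : NeZero (N * q') := ⟨mul_ne_zero hN.ne' hq'.ne_zero⟩
  set a : ℕ → ℤ := fun r => W.apOfModel r with ha
  set R : Set ℕ := {r | r.Prime ∧ W.IsGoodPrimeFor r ∧ ¬ r ∣ N * q' ∧ r ≠ p} with hR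
  obtain ⟨⟨ℓ, hℓ, hℓS, hℓp, hℓg, hℓa⟩, ℓ', hℓ', hℓ'S, hℓ'p, hℓ'g, hℓ'm, hℓ'a⟩ :=
    exists_auxiliary_primes hW hp2 hirr (N * q')
      ((N * q').primeFactors ∪ Finset.range (N + 1) ∪ {2})
  simp only [Finset.mem_union, Nat.mem_primeFactors, Finset.mem_range, Finset.mem_singleton,
    not_or, not_and, ne_eq] at hℓS hℓ'S
  have hNq : N * q' ≠ 0 := NeZero.ne _
  have hℓR : ℓ ∈ R := ⟨hℓ, hℓg, fun hd => (hℓS.1.1 hℓ hd) hNq, hℓp⟩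
  have hℓ'R : ℓ' ∈ R := ⟨hℓ', hℓ'g, fun hd => (hℓ'S.1.1 hℓ' hd) hNq, hℓ'p⟩
  have haux : Auxiliary N p q' R a ℓ :=
    { hp2 := hp2, hq := hq', hqN := hq'N, hR := fun r hr => ⟨hr.1, hr.2.2.1⟩, mem := hℓR,
      hℓN := by have := hℓS.1.2; omega, hℓp := hℓp, hℓ2 := hℓS.2, ha := hℓa }
  -- the symbol of `f`
  have hRf : ∀ r ∈ R, ∃ c : integralClosure ℤ ℂ, hT r (perSym N f) = (c : ℂ) • perSym N f ∧
      c - (a r : integralClosure ℤ ℂ) ∈ 𝔪 := by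
    intro r hr
    have hrN : ¬ r ∣ N := haux.not_dvd_of_mem hr
    obtain ⟨c, hc, hcm⟩ := hcong r hr.1 hr.2.1 hrN hr.2.2.2
    exact ⟨c, by rw [← perSym_heckeTLin N hr.1 hrN,
      HeckeEigen.heckeTLin_apply_of_isNormalizedEigenform hf hr.1 hrN, map_smul, hc], hcm⟩
  obtain ⟨aq, haq, haqm⟩ := hLR
  have hTq : hT q' (perSym N f) = (aq : ℂ) • perSym N f := by
    rw [← perSym_heckeTLin N hq' hq'N,
      HeckeEigen.heckeTLin_apply_of_isNormalizedEigenform hf hq' hq'N, map_smul, haq]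
  obtain ⟨ε, hε, hεm⟩ : ∃ ε : ℤ, ε * ε = 1 ∧
      aq - ((ε * (q' + 1) : ℤ) : integralClosure ℤ ℂ) ∈ 𝔪 := by
    have e : aq ^ 2 - ((q' : integralClosure ℤ ℂ) + 1) ^ 2 =
        (aq - (((1 : ℤ) * (q' + 1) : ℤ) : integralClosure ℤ ℂ)) *
          (aq - (((-1 : ℤ) * (q' + 1) : ℤ) : integralClosure ℤ ℂ)) := by
      push_cast; ring
    rw [e] at haqm
    rcases hmax.isPrime.mem_or_mem haqm with h | h
    · exact ⟨1, rfl, h⟩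
    · exact ⟨-1, rfl, h⟩
  have hG0 : perSym N f ≠ 0 := fun h0 =>
    hf.ne_zero (perSym_injective N (h0.trans (map_zero (perSym N)).symm))
  obtain ⟨Ψ, 𝔪', hΨ, hΨ0, hUU, hmax', hpm', hβ⟩ := haux.exists_eigenSymbol hℓ'R
    ((Int.natCast_dvd_natCast.mpr (dvd_mul_right N q')).trans hℓ'm) hℓ'a hε (isSym_perSym N f) hG0
    𝔪 hmax.isPrime hpm hRf ⟨aq, hTq, hεm⟩
  choose β hβ1 hβ2 using hβ
  have hβℓ : (β ℓ' hℓ'R : ℂ) ≠ (ℓ' : ℂ) + 1 := by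
    intro h0
    have h1 : β ℓ' hℓ'R = ((ℓ' + 1 : ℤ) : integralClosure ℤ ℂ) := Subtype.ext (by simpa using h0)
    have h2 := hβ2 ℓ' hℓ'R
    rw [h1, ← Int.cast_sub] at h2
    have hcop : ¬ (p : ℤ) ∣ ((ℓ' : ℤ) + 1 - a ℓ') := fun hd => hℓ'a (by
      have h3 := (ZMod.intCast_zmod_eq_zero_iff_dvd _ p).mpr hd
      push_cast at h3
      exact (sub_eq_zero.mp h3).symm)
    obtain ⟨u, v, huv⟩ := (Nat.prime_iff_prime_int.mp hp).coprime_iff_not_dvd.mpr hcop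
    refine hmax'.ne_top ((Ideal.eq_top_iff_one _).mpr ?_)
    have h4 := 𝔪'.add_mem (𝔪'.mul_mem_left (u : integralClosure ℤ ℂ) hpm')
      (𝔪'.mul_mem_left (v : integralClosure ℤ ℂ) h2)
    rwa [← Int.cast_natCast, ← Int.cast_mul, ← Int.cast_mul, ← Int.cast_add, huv,
      Int.cast_one] at h4
  obtain ⟨g, hg, hgq, hgR⟩ := exists_eigenform_of_eigenSymbol hq' (dvd_mul_left q' N) (R := R)
    (fun r hr => ⟨hr.1, hr.2.2.1⟩) hΨ hΨ0 hUU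
    (fun r => if h : r ∈ R then (β r h : ℂ) else 0)
    (fun r hr => by rw [dif_pos hr]; exact hβ1 r hr) hℓ'R hℓ'm (by rw [dif_pos hℓ'R]; exact hβℓ)
  refine ⟨g, 𝔪', hg, hmax', hpm', fun r hr hrg hrN hrp => ?_, hgq⟩
  have hrR : r ∈ R := ⟨hr, hrg, hrN, hrp⟩
  refine ⟨β r hrR, ?_, hβ2 r hrR⟩
  rw [hgR r hrR, dif_pos hrR]

end Fermat.Agent.S41
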