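import Fermat.Statements.S42
import Fermat.Agent.EigenRep.AttachedFrey
import Fermat.Agent.S29

set_option autoImplicit false
open FreyPackage

namespace Fermat.Agent.S42

theorem result (P : FreyPackage) :
    ∀ M : ℕ, 0 < M → P.EigenformResidualAttachmentAt M := fun M hM =>
    EigenRep.eigenformResidualAttachmentAt_of_residual P fun hg _ _ _ φ =>
      (S29.result hg P.pp φ).imp fun _ h => h.1

end Fermat.Agent.S42
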