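-- Statement S43: an odd prime `q ≠ p` unramified in the representation leaves the level.
import Fermat.Statements.S43
import Fermat.Agent.Route.Lowering
import Fermat.Agent.MazurPrinciple.Principle
import Fermat.Agent.Engine.Top.LoweringFinal

set_option autoImplicit false
open WeierstrassCurve WeierstrassCurve.Affine WeierstrassCurve.Affine.Point
open CuspForm ModularFormClass UpperHalfPlane
open FreyPackage

namespace Fermat.Agent.S43

theorem result (P : FreyPackage) {N q : ℕ} (hcond : P.IsConductorLevel N) (hq : q.Prime) (hq2 : q ≠ 2) (hqp : q ≠ P.p) (hqN : q ∣ N) (hirr : GaloisRepIsIrreducible (K := AlgebraicClosure ℚ) ℚ P.freyCurve P.p) (hmod : P.ModularRepOfLevel N) (hunr : P.GaloisRepUnramifiedAt q) : ∃ M : ℕ, M ∣ N ∧ ¬ q ∣ M ∧ P.ModularRepOfLevel M :=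
  Route.removeAwayFromP_of' MazurPrinciple.mazurPrinciple Engine.loweringAtOneModP
    P hcond hq hq2 hqp hqN hirr hmod hunr

end Fermat.Agent.S43
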