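import Fermat.Statements.S45
import Fermat.Agent.Route.Rows
import Fermat.Agent.Route.Modularity
import Fermat.Agent.Engine.Top.LiftingFinal
import Fermat.Agent.Engine.Top.LoweringFinal
import Fermat.Agent.Route.SwitchFinal

set_option autoImplicit false
open WeierstrassCurve WeierstrassCurve.Affine WeierstrassCurve.Affine.Point
open CuspForm ModularFormClass UpperHalfPlane
open FreyPackage

namespace Fermat.Agent.S45

theorem result (P : FreyPackage) (hmod : P.freyCurve.IsModular) (hirr : GaloisRepIsIrreducible (K := AlgebraicClosure ℚ) ℚ P.freyCurve P.p) : ∃ f : CuspForm (CongruenceSubgroup.Gamma0 2) 2, f ≠ 0 := by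
  -- residual modularity at a conductor level, then lowering to a level dividing two
  obtain ⟨N, hN, hres⟩ :=
    Route.conductorModularity_of Route.switchModular Engine.liftingAtFive P
  obtain ⟨M, hM2, f, W, 𝔪, hf, -⟩ := Route.exists_level_dvd_two
    (Route.removeAwayFromP_of' MazurPrinciple.mazurPrinciple Engine.loweringAtOneModP)
    (LevelP.removeP_of
      (Route.removeAwayFromP_of' MazurPrinciple.mazurPrinciple Engine.loweringAtOneModP))
    P hirr N hN hres
  rcases (Nat.dvd_prime Nat.prime_two).1 hM2 with rfl | rfl
  · -- level one carries no form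
    exact absurd (Fermat.Agent.S08.result f) hf.ne_zero
  · exact ⟨f, hf.ne_zero⟩

end Fermat.Agent.S45
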