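import Fermat.Statements.S52
import Fermat.Agent.ThreeFive.Main
import Fermat.Agent.EllFrobenius.Rat

set_option autoImplicit false
open WeierstrassCurve WeierstrassCurve.Affine WeierstrassCurve.Affine.Point
open CuspForm ModularFormClass UpperHalfPlane
open WeierstrassCurve

namespace Fermat.Agent.S52

theorem result (W : WeierstrassCurve ℤ) (hΔ : W.Δ ≠ 0) (hW : W.IsSemistableModel) (h5 : W.ModRepIsIrreducible 5) : ∃ W' : WeierstrassCurve ℤ, W'.Δ ≠ 0 ∧ W'.IsSemistableModel ∧ W'.ModRepIsIrreducible 3 ∧ ∀ ℓ : ℕ, ℓ.Prime → W.IsGoodPrimeFor ℓ → W'.IsGoodPrimeFor ℓ → ℓ ≠ 5 → (5 : ℤ) ∣ (W'.apOfModel ℓ - W.apOfModel ℓ) := by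
  refine Fermat.Agent.ThreeFive.switch (fun V ℓ hℓ hl5 hg A σ hA hσ => ?_) W hΔ hW
  have : Fact ℓ.Prime := ⟨hℓ⟩
  have : Fact (Nat.Prime 5) := ⟨Nat.prime_five⟩
  exact Fermat.Agent.EllFrobenius.galoisTrace_eq_apOfModel V ℓ 5 hl5 hg A σ hA hσ

end Fermat.Agent.S52
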