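import Fermat.Statements.S53
import Fermat.Agent.DefRing.Universal
-- import your own Fermat.Agent.* helpers here

set_option autoImplicit false
set_option autoImplicit false
open GaloisRep

namespace Fermat.Agent.S53

open IsLocalRing Fermat.Agent.DefRing

/-- Residual equivalence of a normal lift with the base change of the residual representation. -/
theorem residual_isEquiv_of_reduces {𝒪 : Type} [CommRing 𝒪] [IsLocalRing 𝒪]
    {ρbar : ResidualGaloisRep (ResidueField 𝒪)}
    (b : Module.Basis (Fin 2) (ResidueField 𝒪) ρbar.V) {D : NormalData 𝒪}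
    (hD : ∀ σ, D.rbar σ = LinearMap.toMatrix b b (ρbar.ρ σ))
    {A : Type} [CommRing A] [IsLocalRing A] [Algebra 𝒪 A] [hl : IsLocalHom (algebraMap 𝒪 A)]
    (hs : Function.Surjective (residue A ∘ algebraMap 𝒪 A)) {N : MRep A}
    (hr : D.Reduces hl hs N) (hc : IsCont N) :
    (toAdic N hc).residual.IsEquiv
      (ρbar.baseChangeAlong (ResidueField.map (algebraMap 𝒪 A))) := by
  rw [residual_isEquiv_baseChangeAlong_iff _ (toAdicBasis N hc) ρbar b]
  refine ⟨1, fun σ => ?_⟩
  rw [Units.val_one, one_mul, mul_one, matrixRep_toAdic, ← hD, ← hr]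
  ext i j
  simp only [mapRep_apply, Matrix.map_apply]
  exact (residueField_map_toResidue hs (N σ i j)).symm

/-- Every deformation has a normal matrix form. -/
theorem exists_normal_of_residual {𝒪 : Type} [CommRing 𝒪] [IsLocalRing 𝒪]
    {ρbar : ResidualGaloisRep (ResidueField 𝒪)}
    (b : Module.Basis (Fin 2) (ResidueField 𝒪) ρbar.V) {D : NormalData 𝒪}
    (hD : ∀ σ, D.rbar σ = LinearMap.toMatrix b b (ρbar.ρ σ))
    {A : Type} [CommRing A] [IsLocalRing A] [Algebra 𝒪 A] [hl : IsLocalHom (algebraMap 𝒪 A)]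
    [HenselianRing A (maximalIdeal A)]
    (hs : Function.Surjective (residue A ∘ algebraMap 𝒪 A)) (ρ : GaloisRepAdic A)
    (h : ρ.residual.IsEquiv (ρbar.baseChangeAlong (ResidueField.map (algebraMap 𝒪 A)))) :
    ∃ (N : MRep A) (hc : IsCont N), D.IsNormal N ∧ D.Reduces hl hs N ∧
      ρ.IsEquiv (toAdic N hc) := by
  obtain ⟨g, hg⟩ := (residual_isEquiv_baseChangeAlong_iff ρ (repBasis ρ) ρbar b _).mp h
  let ψ := ResidueField.map (algebraMap 𝒪 A)
  have hψs : Function.Surjective ψ := fun y => by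
    obtain ⟨x, rfl⟩ := hs y
    exact ⟨residue 𝒪 x, ResidueField.map_residue _ x⟩
  obtain ⟨g₁, hg₁⟩ : ∃ g₁ : Matrix (Fin 2) (Fin 2) (ResidueField 𝒪),
      g₁.map ψ = (g : Matrix (Fin 2) (Fin 2) (ResidueField A)) :=
    ⟨(g : Matrix (Fin 2) (Fin 2) (ResidueField A)).map (Function.surjInv hψs),
      Matrix.ext fun i j => Function.surjInv_eq hψs _⟩
  have hu : IsUnit g₁ := by
    rw [Matrix.isUnit_iff_isUnit_det, isUnit_iff_ne_zero]
    intro h0
    have h1 : ψ.mapMatrix g₁ = g := hg₁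
    have := congrArg Matrix.det h1
    rw [← RingHom.map_det, h0, map_zero] at this
    exact ((Matrix.isUnit_iff_isUnit_det _).mp g.isUnit).ne_zero this.symm
  obtain ⟨G, N, hGN, hnorm, hred⟩ := NormalData.exists_normal (D := D) (hl := hl) (hs := hs)
    (matrixRep ρ (repBasis ρ)) ⟨hu.unit, fun σ => Matrix.map_injective ψ.injective (by
      have e := hg σ
      rw [← hD, ← hg₁] at e
      have hres : ((matrixRep ρ (repBasis ρ) σ).map (toResidue hl hs)).map ψ =
          (matrixRep ρ (repBasis ρ) σ).map (residue A) := by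
        ext i j
        simp only [Matrix.map_apply]
        exact residueField_map_toResidue hs _
      show ((g₁ * (matrixRep ρ (repBasis ρ) σ).map (toResidue hl hs)).map ψ) =
        (D.rbar σ * g₁).map ψ
      rw [Matrix.map_mul, Matrix.map_mul, hres]
      exact e)⟩
  have hc : IsCont N := by
    have hM := isCont_matrixRep ρ (repBasis ρ)
    intro n
    obtain ⟨L, hL, h1⟩ := hM n
    refine ⟨L, hL, fun σ hσ i j => ?_⟩
    have : N σ - 1 = (G : Matrix (Fin 2) (Fin 2) A) * (matrixRep ρ (repBasis ρ) σ - 1) *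
        (↑G⁻¹ : Matrix (Fin 2) (Fin 2) A) := by
      rw [mul_sub, sub_mul, hGN σ, mul_one, mul_assoc, Units.mul_inv, mul_one]
    rw [this, Matrix.mul_apply]
    refine Ideal.sum_mem _ fun l _ => Ideal.mul_mem_right _ _ ?_
    rw [Matrix.mul_apply]
    exact Ideal.sum_mem _ fun m _ => Ideal.mul_mem_left _ _ (h1 σ hσ m l)
  refine ⟨N, hc, hnorm, hred, ?_⟩
  rw [isEquiv_iff_exists_GL (repBasis ρ) (toAdicBasis N hc), matrixRep_toAdic]
  exact ⟨G, hGN⟩

theorem result
    (𝒪 : Type) [CommRing 𝒪] [IsDomain 𝒪] [IsDiscreteValuationRing 𝒪]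
    [IsAdicComplete (IsLocalRing.maximalIdeal 𝒪) 𝒪] [Finite (IsLocalRing.ResidueField 𝒪)]
    (ρbar : ResidualGaloisRep (IsLocalRing.ResidueField 𝒪))
    (𝒟 : ∀ ⦃A : Type⦄ [CommRing A] [IsLocalRing A] [Algebra 𝒪 A], GaloisRepAdic A → Prop)
    (habs : ρbar.IsAbsolutelyIrreducible)
    (h𝒟 : GaloisRep.IsDeformationCondition 𝒪 𝒟)
    (hbar : 𝒟 (GaloisRepAdic.ofResidualGaloisRep ρbar))
    (hfin : GaloisRep.TangentFinite 𝒪 ρbar 𝒟) :
    Nonempty (GaloisRep.DeformationRingData 𝒪 ρbar 𝒟) := by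
  let b : Module.Basis (Fin 2) (ResidueField 𝒪) ρbar.V :=
    Module.finBasisOfFinrankEq (ResidueField 𝒪) ρbar.V ρbar.finrank_eq
  obtain ⟨D, hD⟩ := exists_normalData ρbar habs b
  have := finite_tangentSet (D := D) (𝒟 := 𝒟) ρbar b hD hfin
  obtain ⟨T⟩ := exists_tower h𝒟 ρbar b hD hbar
  exact ⟨{
    R := T.Ring
    instIsAdicComplete := T.isAdicComplete
    instIsLocalHom := T.isLocalHom_algebraMap
    residue_surjective := T.residue_surjective
    absIrr := habs
    ρ := toAdic (T.rep h𝒟) (T.isCont_rep h𝒟)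
    isOfType := T.type_rep h𝒟
    residual_isEquiv := residual_isEquiv_of_reduces (hl := T.isLocalHom_algebraMap) b hD
      T.residue_surjective (T.reduces_rep h𝒟) _
    universal := by
      intro A _ _ _ _ _ _ hs ρA hρA hres
      obtain ⟨N, hc, hnorm, hred, hequiv⟩ := exists_normal_of_residual b hD hs ρA hres
      have hl : IsLocalHom (algebraMap 𝒪 A) := inferInstance
      have htype : 𝒟 (toAdic N hc) := (h𝒟.iff_forall_surjective hl hs _).mpr fun {B} _ _ _ hB q hq
          hqs => h𝒟.of_isEquiv hB (isEquiv_baseChangeAlong _ hq hequiv)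
            ((h𝒟.iff_forall_surjective hl hs _).mp hρA hB q hq hqs)
      obtain ⟨φ, hφ, hφN⟩ := T.exists_algHom_of_isDef h𝒟 hl hs N ⟨hnorm, hred, hc, htype⟩
      refine ⟨φ, ⟨hφ, ?_⟩, ?_⟩
      · have e := baseChangeAlong_toAdic_isEquiv (T.rep h𝒟) (T.isCont_rep h𝒟)
          (φ : T.Ring →+* A) hφ
        simp only [hφN] at e
        exact isEquiv_trans e (isEquiv_symm hequiv)
      · rintro φ' ⟨hφ', he⟩
        refine T.algHom_ext_of_rep h𝒟 hφ' hφ ?_
        rw [hφN]
        have e := isEquiv_trans (isEquiv_trans (isEquiv_symm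
          (baseChangeAlong_toAdic_isEquiv (T.rep h𝒟) (T.isCont_rep h𝒟) (φ' : T.Ring →+* A) hφ'))
          he) hequiv
        obtain ⟨g, hg⟩ := (toAdic_isEquiv_toAdic_iff _ hc).mp e
        exact NormalData.eq_of_conj ((T.isNormal_rep h𝒟).map φ') hnorm
          ((T.reduces_rep h𝒟).map φ' hφ') hred g hg }⟩

end Fermat.Agent.S53
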