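import Fermat.Statements.S54
import Fermat.Agent.Frobenius.Exists

set_option autoImplicit false
open GaloisRep GaloisRep.DeformationRingData
open Polynomial

namespace Fermat.Agent.S54

/-- Equivalent adic representations have equal characteristic polynomials; base change maps
them coefficientwise. -/
theorem charpoly_baseChangeAlong_of_isEquiv {A B : Type} [CommRing A] [IsLocalRing A]
    [CommRing B] [IsLocalRing B] (φ : A →+* B) (hφ : IsLocalHom φ) (ρ : GaloisRepAdic A)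
    (ρ' : GaloisRepAdic B) (h : (ρ.baseChangeAlong φ hφ).IsEquiv ρ')
    (σ : AlgebraicClosure ℚ ≃ₐ[ℚ] AlgebraicClosure ℚ) :
    LinearMap.charpoly (ρ'.ρ σ) = (LinearMap.charpoly (ρ.ρ σ)).map φ := by
  let _ : Algebra A B := φ.toAlgebra
  obtain ⟨e⟩ := h
  have h1 : e.toLinearEquiv.conj ((ρ.baseChangeAlong φ hφ).ρ σ) = ρ'.ρ σ := by
    ext x
    rw [LinearEquiv.conj_apply_apply, e.map_apply, LinearEquiv.apply_symm_apply]
  rw [← h1, LinearEquiv.charpoly_conj]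
  exact LinearMap.charpoly_baseChange (ρ.ρ σ) B

theorem result {𝒪 : Type} [CommRing 𝒪] [IsDomain 𝒪] [IsDiscreteValuationRing 𝒪] [IsAdicComplete (IsLocalRing.maximalIdeal 𝒪) 𝒪] {ρbar : ResidualGaloisRep (IsLocalRing.ResidueField 𝒪)} {𝒟 : ∀ ⦃A : Type⦄ [CommRing A] [IsLocalRing A] [Algebra 𝒪 A], GaloisRepAdic A → Prop} (D : GaloisRep.DeformationRingData 𝒪 ρbar 𝒟) {N : ℕ} [NeZero N] {S : Set ℕ} {θ : CuspForm.heckeAlgebra N 2 S →+* IsLocalRing.ResidueField 𝒪} {T : Type} [CommRing T] [IsLocalRing T] [IsNoetherianRing T] [IsAdicComplete (IsLocalRing.maximalIdeal T) T] [Algebra 𝒪 T] [IsLocalHom (algebraMap 𝒪 T)] [Module.Finite 𝒪 T] [Module.Free 𝒪 T] (H : CuspForm.HeckeGaloisRepDatum N S 𝒪 θ T) (hS : ∀ q : ℕ, q.Prime → q ∣ N → q ∈ S) (h𝒟 : 𝒟 H.ρ) (hres : H.ρ.residual.IsEquiv (ρbar.baseChangeAlong (IsLocalRing.ResidueField.map (algebraMap 𝒪 T)))) : ∃ φ : D.R →ₐ[𝒪] T, Function.Surjective φ ∧ ∃ hφ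 : IsLocalHom (φ : D.R →+* T), (D.ρ.baseChangeAlong (φ : D.R →+* T) hφ).IsEquiv H.ρ := by
  obtain ⟨φ, ⟨hφ, heq⟩, -⟩ := D.universal T H.residue_surjective H.ρ h𝒟 hres
  refine ⟨φ, ?_, hφ, heq⟩
  have hT : ∀ (ℓ : ℕ) (hℓ : ℓ.Prime) (hℓN : ¬ ℓ ∣ N) (hℓS : ℓ ∉ S),
      H.π (CuspForm.heckeAlgebra.T hℓ hℓN hℓS) ∈ φ.range := by
    intro ℓ hℓ hℓN hℓS
    obtain ⟨A, σ, hA, hσ⟩ :=
      Fermat.Agent.Frobenius.exists_liesOverPrime_and_isFrobeniusAt_qbar hℓ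
    have h := charpoly_baseChangeAlong_of_isEquiv _ hφ D.ρ H.ρ heq σ
    rw [H.charpoly_frob ℓ hℓ hℓN hℓS A hA σ hσ] at h
    have h1 := congrArg (fun q => coeff q 1) h
    simp only [coeff_add, coeff_sub, coeff_C_mul, coeff_X_pow, coeff_X_one, coeff_C, coeff_map,
      show (1 : ℕ) ≠ 2 by omega, show (1 : ℕ) ≠ 0 by omega, if_false, mul_one, zero_sub, add_zero,
      RingHom.coe_coe] at h1
    exact ⟨-(coeff (LinearMap.charpoly (D.ρ.ρ σ)) 1), by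
      change φ _ = _
      rw [map_neg, ← h1, neg_neg]⟩
  have hπ : ∀ t, H.π t ∈ φ.range := by
    rintro ⟨t, ht⟩
    induction ht using Algebra.adjoin_induction with
    | mem x hx =>
      rcases hx with ⟨ℓ, hℓ, hℓN, hℓS, rfl⟩ | ⟨q, hqN, hq, hqS, rfl⟩
      · exact hT ℓ hℓ hℓN hℓS
      · exact absurd (hS q hq hqN) hqS
    | algebraMap r =>
      have h : H.π ⟨_, (CuspForm.heckeAlgebra N 2 S).algebraMap_mem r⟩ = (r : T) := by
        change H.π (algebraMap ℤ _ r) = _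
        simp
      rw [h]
      exact intCast_mem _ r
    | add x y hx hy ihx ihy =>
      have h : H.π ⟨x + y, add_mem hx hy⟩ = H.π ⟨x, hx⟩ + H.π ⟨y, hy⟩ := by
        rw [← map_add]; rfl
      rw [h]
      exact add_mem ihx ihy
    | mul x y hx hy ihx ihy =>
      have h : H.π ⟨x * y, mul_mem hx hy⟩ = H.π ⟨x, hx⟩ * H.π ⟨y, hy⟩ := by
        rw [← map_mul]; rfl
      rw [h]
      exact mul_mem ihx ihy
  have hle : Algebra.adjoin 𝒪 (Set.range H.π) ≤ φ.range :=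
    Algebra.adjoin_le (by rintro _ ⟨t, rfl⟩; exact hπ t)
  rw [H.adjoin_range_π, top_le_iff] at hle
  exact (AlgHom.range_eq_top φ).1 hle

end Fermat.Agent.S54
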