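import Fermat.Statements.S55
import Fermat.Agent.RowS55.Translate
import Fermat.Agent.GalCoh.GW.Final
import Fermat.Agent.GalCoh.Euler.Irrelevant

set_option autoImplicit false
set_option autoImplicit false
open CategoryTheory Module groupCohomology ExtCitation
open groupCohomology

namespace Fermat.Agent.S55

open Fermat.Agent.GalCoh Fermat.Agent.RowS55 in
theorem exists_setup {p : ℕ} [Fact p.Prime] (hp2 : p ≠ 2) (S : Finset Nat.Primes)
    (hpS : pPrime p ∈ S) (M : Rep (ZMod p) (AlgebraicClosure ℚ ≃ₐ[ℚ] AlgebraicClosure ℚ))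
    [FiniteDimensional (ZMod p) M]
    (hsm : ∀ m : M, ∃ F : IntermediateField ℚ (AlgebraicClosure ℚ), FiniteDimensional ℚ F ∧
      ∀ s ∈ F.fixingSubgroup, M.ρ s m = m)
    (hMur : ∀ q : Nat.Primes, q ∉ S → ∀ A : ValuationSubring (AlgebraicClosure ℚ),
      A.LiesOverPrime (q : ℕ) → ∀ g ∈ A.inertiaSubgroupIn ℚ, M.ρ g = 1) :
    ∃ (inv : InvFamily p) (N : Subgroup (AlgebraicClosure ℚ ≃ₐ[ℚ] AlgebraicClosure ℚ)),
      Setup p S inv N ∧ ∀ x ∈ N, M.ρ x = 1 := by
  classical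
  obtain ⟨inv, hinv⟩ := exists_isReciprocal (CFT.cftInputs p)
  let ρ' := MonoidHom.toHomUnits M.ρ
  let N := ρ'.ker ⊓ (cycloChar p).ker
  have hρ : ∀ x ∈ N, M.ρ x = 1 := fun x hx => congrArg Units.val hx.1
  have : Finite M := Module.finite_of_finite (ZMod p)
  let _ : Fintype M := Fintype.ofFinite _
  choose F hF hFm using hsm
  have := hF
  have := IntermediateField.adjoin.finiteDimensional
    (Algebra.IsIntegral.isIntegral (R := ℚ) (Descent.zetaP p))
  have hmem : fullLevels.mem N := by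
    refine ⟨(⨆ m, F m) ⊔ IntermediateField.adjoin ℚ {Descent.zetaP p}, inferInstance,
      fun s hs => ⟨Units.ext (LinearMap.ext fun m => ?_), ?_⟩⟩
    · exact hFm m s (IntermediateField.fixingSubgroup_antitone
        (le_sup_of_le_left (le_iSup F m)) hs)
    · exact Descent.cycloChar_eq_one ((IntermediateField.mem_fixingSubgroup_iff _ _).mp hs _
        ((le_sup_right : IntermediateField.adjoin ℚ {Descent.zetaP p} ≤ _)
          (IntermediateField.mem_adjoin_simple_self ℚ _)))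
  refine ⟨inv, N, ⟨hp2, CFT.cftInputs p, greenbergWilesLe p, hinv, hpS,
    GW.levelsS_mem_of_inertia_le hmem fun q hq A hA τ hτ => ⟨Units.ext (hMur q hq A hA τ hτ), ?_⟩,
    hmem, inferInstance, fun τ hτ => hτ.2, fun hc => ?_⟩, hρ⟩
  · refine Descent.cycloChar_eq_one (BigImage.inertia_root_of_unity q.2 hA hτ (fun h => hq ?_)
      (Descent.zetaP_spec p).pow_eq_one)
    have e := (Nat.prime_dvd_prime_iff_eq q.2 (Fact.out : p.Prime)).mp h
    rwa [show q = pPrime p from Subtype.ext e]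
  · have h1 : (cycloChar p complexConjugation : ZMod p) = 1 := by
      rw [show cycloChar p complexConjugation = 1 from hc.2, Units.val_one]
    rw [GalCoh.Euler.cycloChar_complexConjugation] at h1
    exact two_ne_zero_zmod hp2 (by linear_combination -h1)

theorem result
    {p : ℕ} [Fact p.Prime] (hp2 : p ≠ 2) (S : Finset Nat.Primes) (hpS : pPrime p ∈ S)
    (M : Rep (ZMod p) (AlgebraicClosure ℚ ≃ₐ[ℚ] AlgebraicClosure ℚ))
    [FiniteDimensional (ZMod p) M]
    (hsm : ∀ m : M, ∃ F : IntermediateField ℚ (AlgebraicClosure ℚ), FiniteDimensional ℚ F ∧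
      ∀ s ∈ F.fixingSubgroup, M.ρ s m = m)
    (hMur : ∀ q : Nat.Primes, q ∉ S → ∀ A : ValuationSubring (AlgebraicClosure ℚ),
      A.LiesOverPrime (q : ℕ) → ∀ g ∈ A.inertiaSubgroupIn ℚ, M.ρ g = 1) :
    ∃ B : sha₁ S (M.dualTwist (cycloChar p)) →ₗ[ZMod p] sha₂ S M →ₗ[ZMod p] ZMod p,
      (∀ y, (∀ x, B y x = 0) → y = 0) ∧ (∀ x, (∀ y, B y x = 0) → x = 0) := by
  obtain ⟨inv, N, hS, hρ⟩ := exists_setup hp2 S hpS M hsm hMur
  obtain ⟨f1, f2, h⟩ := hS.finrank_sha2 hρ
  let e1 : Fermat.Agent.GalCoh.sha1 S (Fermat.Agent.GalCoh.dualMu M.ρ) ≃ₗ[ZMod p]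
      sha₁ S (M.dualTwist (cycloChar p)) :=
    Fermat.Agent.RowS55.sha1Equiv S (M.dualTwist (cycloChar p))
  let e2 := Fermat.Agent.RowS55.sha2Equiv S M
  have : FiniteDimensional (ZMod p) (sha₁ S (M.dualTwist (cycloChar p))) := Module.Finite.equiv e1
  have : FiniteDimensional (ZMod p) (sha₂ S M) := Module.Finite.equiv e2
  let e : sha₁ S (M.dualTwist (cycloChar p)) ≃ₗ[ZMod p] Dual (ZMod p) (sha₂ S M) :=
    LinearEquiv.ofFinrankEq _ _
      (by rw [Subspace.dual_finrank_eq, ← e1.finrank_eq, ← e2.finrank_eq, h])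
  refine ⟨e.toLinearMap, fun y hy => e.map_eq_zero_iff.mp (LinearMap.ext hy), fun x hx => ?_⟩
  refine (Module.forall_dual_apply_eq_zero_iff (ZMod p) x).mp fun φ => ?_
  rw [← e.apply_symm_apply φ]
  exact hx _

end Fermat.Agent.S55
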