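import Fermat.Statements.S56
import Fermat.Agent.RowS56.Deform.Assembly

set_option autoImplicit false
set_option autoImplicit false
open Polynomial IsLocalRing
open ResidualGaloisRep

namespace Fermat.Agent.S56

theorem result
    {𝒪 : Type} [CommRing 𝒪] [IsDomain 𝒪] [IsDiscreteValuationRing 𝒪]
    [IsAdicComplete (maximalIdeal 𝒪) 𝒪] [Finite (ResidueField 𝒪)]
    (p : ℕ) [Fact p.Prime] (hp2 : p ≠ 2) (hp𝒪 : (p : 𝒪) ∈ maximalIdeal 𝒪)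
    (ρbar : ResidualGaloisRep (ResidueField 𝒪))
    (habs : ρbar.IsAbsolutelyIrreducible)
    (hdet : (GaloisRepAdic.ofResidualGaloisRep ρbar).DetIsCyclotomic p)
    (hsplit : ∀ σ : AlgebraicClosure ℚ ≃ₐ[ℚ] AlgebraicClosure ℚ,
      ∃ α β : ResidueField 𝒪, LinearMap.charpoly (ρbar.ρ σ) = (X - C α) * (X - C β))
    (hTW : ∀ (K : Type) [Field K] [Algebra (ResidueField 𝒪) K]
      (G : Subgroup (AlgebraicClosure ℚ ≃ₐ[ℚ] AlgebraicClosure ℚ)), G.index = 2 →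
      ∀ V : Submodule K (ρbar.baseChange K).V,
        (∀ σ ∈ G, ∀ x ∈ V, (ρbar.baseChange K).ρ σ x ∈ V) → V = ⊥ ∨ V = ⊤)
    (S Smin : Finset ℕ) (hpSmin : p ∈ Smin) (hSmin : Smin ⊆ S) (hS : ∀ q ∈ S, q.Prime)
    (hmin : ∀ q : ℕ, q.Prime → q ≠ p → (q ∈ Smin ↔ ¬ ρbar.IsUnramifiedAt q)) :
    (∃ r : ℕ, ∀ n : ℕ, ∃ qv : Fin r → ℕ, Function.Injective qv ∧
      (∀ i, (qv i).Prime ∧ qv i ∉ S ∧ p ^ (n + 1) ∣ qv i - 1) ∧
      (∀ i, ∀ P : ValuationSubring (AlgebraicClosure ℚ), P.LiesOverPrime (qv i) →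
        ∀ φ : AlgebraicClosure ℚ ≃ₐ[ℚ] AlgebraicClosure ℚ, P.IsFrobeniusAt φ (qv i) →
          ∃ α β : ResidueField 𝒪, α ≠ β ∧ LinearMap.charpoly (ρbar.ρ φ) = (X - C α) * (X - C β)) ∧
      ∀ DQ : GaloisRep.DeformationRingData 𝒪 ρbar (fun _A _ _ _ ρ =>
          GaloisRep.strictOrdinaryCondition 𝒪 p (Smin ∪ Finset.univ.image qv) ρ ∧
            ∀ q ∈ Smin, q.Prime → q ≠ p → ρ.IsUnipotentOnInertiaAt q),
        ∃ γ : MvPowerSeries (Fin r) 𝒪 →ₐ[𝒪] DQ.R, Function.Surjective γ) ∧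
    (∃ r : ℕ, ∀ n : ℕ, ∃ qv : Fin r → ℕ, Function.Injective qv ∧
      (∀ i, (qv i).Prime ∧ qv i ∉ S ∧ p ^ (n + 1) ∣ qv i - 1) ∧
      (∀ i, ∀ P : ValuationSubring (AlgebraicClosure ℚ), P.LiesOverPrime (qv i) →
        ∀ φ : AlgebraicClosure ℚ ≃ₐ[ℚ] AlgebraicClosure ℚ, P.IsFrobeniusAt φ (qv i) →
          ∃ α β : ResidueField 𝒪, α ≠ β ∧ LinearMap.charpoly (ρbar.ρ φ) = (X - C α) * (X - C β)) ∧
      ∀ DQ : GaloisRep.DeformationRingData 𝒪 ρbar (fun _A _ _ _ ρ =>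
          GaloisRep.flatCondition 𝒪 p (Smin ∪ Finset.univ.image qv) ρ ∧
            ∀ q ∈ Smin, q.Prime → q ≠ p → ρ.IsUnipotentOnInertiaAt q),
        ∃ γ : MvPowerSeries (Fin r) 𝒪 →ₐ[𝒪] DQ.R, Function.Surjective γ) := by
  refine ⟨?_, ?_⟩
  · refine RowS56.exists_twPrimes_surjective p hp2 hp𝒪 ρbar habs hdet hsplit hTW S Smin hSmin hS
      hmin (fun S' A _ _ _ ρ => GaloisRep.strictOrdinaryCondition 𝒪 p S' ρ ∧
        ∀ q ∈ Smin, q.Prime → q ≠ p → ρ.IsUnipotentOnInertiaAt q)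
      (fun S' _ _ _ _ _ _ _ _ φ hφ _ ρ h => RowS56.strictMin_baseChange φ hφ h)
      (fun S' _ _ _ _ ρ h => ⟨h.1.1, h.1.2.2, h.2⟩) fun b₀ S₀ ρ₀ b hb h => ?_
    have hpk : CharP (ResidueField 𝒪) p := (CharP.charP_iff_prime_eq_zero Fact.out).mpr (by
      rw [← map_natCast (residue 𝒪), residue_eq_zero_iff]; exact hp𝒪)
    obtain ⟨atP, hatP⟩ := RowS56.exists_strict_atP
      (by have := (Fact.out : p.Prime).two_le; omega) (RowS56.finite_level_residualMat ρbar b₀)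
      (fun σ => RowS56.det_matrixRep_eq_chi hdet (CharP.cast_eq_zero _ p) b₀ σ)
      (ExtCitation.primeLocalPlace ⟨p, Fact.out⟩)
      (Fermat.Agent.GalCoh.Descent.primeLocalPlace_liesOver _) b hb h.1.1 h.1.2.1
    exact ⟨atP, fun S' ρ' b' h' hf => hatP ρ' b' h'.1.1 h'.1.2.1 hf⟩
  · refine RowS56.exists_twPrimes_surjective p hp2 hp𝒪 ρbar habs hdet hsplit hTW S Smin hSmin hS
      hmin (fun S' A _ _ _ ρ => GaloisRep.flatCondition 𝒪 p S' ρ ∧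
        ∀ q ∈ Smin, q.Prime → q ≠ p → ρ.IsUnipotentOnInertiaAt q)
      (fun S' _ _ _ _ _ _ _ _ φ hφ hs ρ h => RowS56.flatMin_baseChange φ hφ hs h)
      (fun S' _ _ _ _ ρ h => ⟨h.1.1, h.1.2.2, h.2⟩) fun b₀ S₀ ρ₀ b hb h => ?_
    have hpk : CharP (ResidueField 𝒪) p := (CharP.charP_iff_prime_eq_zero Fact.out).mpr (by
      rw [← map_natCast (residue 𝒪), residue_eq_zero_iff]; exact hp𝒪)
    obtain ⟨atP, hatP⟩ := RowS56.exists_flat_atP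
      (by have := (Fact.out : p.Prime).two_le; omega) (RowS56.finite_level_residualMat ρbar b₀)
      (fun σ => RowS56.det_matrixRep_eq_chi hdet (CharP.cast_eq_zero _ p) b₀ σ)
      (ExtCitation.primeLocalPlace ⟨p, Fact.out⟩)
      (Fermat.Agent.GalCoh.Descent.primeLocalPlace_liesOver _) b hb h.1.2.1
    exact ⟨atP, fun S' ρ' b' h' hf => hatP ρ' b' h'.1.1 h'.1.2.1 hf⟩

end Fermat.Agent.S56
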