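-- Statement S57 (row 51): patching descent step.
import Fermat.Statements.S57
import Fermat.Agent.Patching.FreeDescent

set_option autoImplicit false
open Algebra Algebra.PatchingLevel

namespace Fermat.Agent.S57

theorem result
    {𝒪 : Type} [CommRing 𝒪] [IsDomain 𝒪] [IsDiscreteValuationRing 𝒪]
    {r : ℕ} {R : Type} [CommRing R] [Algebra 𝒪 R]
    {M : Type} [AddCommGroup M] [Module R M] [Nontrivial M]
    (L : Algebra.PatchingLevel 𝒪 r R M ⊥) :
    Module.Free R M ∧ Module.annihilator R M = ⊥ ∧
      RingHom.ker L.ψ = Ideal.span (Set.range fun i : Fin r => L.φ (MvPowerSeries.X i)) := by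
  classical
  have := Fermat.Agent.Patching.free_N L
  have := Fermat.Agent.Patching.nontrivial_N L
  have : Nontrivial R := Module.nontrivial R M
  set I := Ideal.span (Set.range fun i : Fin r => L.φ (MvPowerSeries.X i)) with hI
  have hIψ : ∀ f ∈ I, L.ψ f = 0 := by
    intro f hf
    have : I ≤ RingHom.ker L.ψ := by
      rw [hI, Ideal.span_le]
      rintro _ ⟨i, rfl⟩
      exact L.ψ_φ_X i
    exact this hf
  let v := Module.Free.chooseBasis (MvPowerSeries (Fin r) 𝒪) L.N
  have hcoord : ∀ x ∈ I • (⊤ : Submodule (MvPowerSeries (Fin r) 𝒪) L.N),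
      ∀ j, v.repr x j ∈ I := by
    intro x hx
    induction hx using Submodule.smul_induction_on' with
    | smul a ha n _ => intro j; simpa using Ideal.mul_mem_right _ _ ha
    | add x _ y _ hx hy => intro j; simpa using add_mem (hx j) (hy j)
  have hker : RingHom.ker L.ψ = I := by
    refine le_antisymm (fun f hf => ?_) (fun f hf => hIψ f hf)
    obtain ⟨j⟩ := v.index_nonempty
    have h0 : L.π (f • v j) = 0 := by
      rw [L.π_smul, RingHom.mem_ker.mp hf, zero_smul]
    simpa using hcoord _ ((L.ker_π _).mp h0) j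
  let g : (Module.Free.ChooseBasisIndex (MvPowerSeries (Fin r) 𝒪) L.N →₀ R) →ₗ[R] M :=
    Finsupp.linearCombination R (fun j => L.π (v j))
  have hgψ : ∀ c : Module.Free.ChooseBasisIndex (MvPowerSeries (Fin r) 𝒪) L.N →₀
      MvPowerSeries (Fin r) 𝒪,
      g (c.mapRange L.ψ (map_zero _)) =
        L.π (Finsupp.linearCombination (MvPowerSeries (Fin r) 𝒪) v c) := by
    intro c
    induction c using Finsupp.induction_linear with
    | zero => simp
    | add x y hx hy => rw [Finsupp.mapRange_add (by simp), map_add, hx, hy, map_add, map_add]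
    | single j a => simp [g, L.π_smul]
  have hlift : ∀ u : Module.Free.ChooseBasisIndex (MvPowerSeries (Fin r) 𝒪) L.N →₀ R,
      ∃ c : Module.Free.ChooseBasisIndex (MvPowerSeries (Fin r) 𝒪) L.N →₀
        MvPowerSeries (Fin r) 𝒪, c.mapRange L.ψ (map_zero _) = u :=
    Finsupp.mapRange_surjective _ (map_zero _) L.ψ_surjective
  have hsurj : Function.Surjective g := by
    intro m
    obtain ⟨x, rfl⟩ := L.π_surjective m
    exact ⟨_, (hgψ (v.repr x)).trans (by rw [v.linearCombination_repr])⟩
  have hinj : Function.Injective g := by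
    refine (injective_iff_map_eq_zero _).mpr fun u hu => ?_
    obtain ⟨c, rfl⟩ := hlift u
    rw [hgψ] at hu
    ext j
    have hj := hcoord _ ((L.ker_π _).mp hu) j
    rw [Module.Basis.repr_linearCombination] at hj
    simpa using hIψ _ hj
  have hfree : Module.Free R M := Module.Free.of_equiv (LinearEquiv.ofBijective g ⟨hinj, hsurj⟩)
  exact ⟨hfree, Module.annihilator_eq_bot.mpr inferInstance, hker⟩

end Fermat.Agent.S57
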